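import Fermat.Agent.LT.T2.Admissible
import Fermat.Agent.LT.T7.H144.WSpecCut

/-!
# Row LT, tower T7, leaf T7.L2.2.B1.W1 `ClassFinC144` (helper130, architect of T2)

OFF-MAIN.  PROVED, UNCONDITIONAL.  The Prop of helper144 (`T7/H144/WSpecCut.lean`, sha256
b4ddb868) VERBATIM.  It is `T2.finite_meanClass130` (`LT/T2/Admissible.lean`) for the members of
an `IsCuspBasisPlus`.
-/

set_option autoImplicit false

open IsDedekindDomain NumberField

namespace Fermat.Agent.LT.T7.H130

open Fermat.Agent.LT Fermat.Agent.LT.T7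

/-- **T7.L2.2.B1.W1** `ClassFinC144`, VERBATIM. -/
theorem classFinC130 (K : Type) [Field K] [NumberField K] : H144W.ClassFinC144 K := by
  intro hcx 𝔫 h𝔫 F ι u m a b hB j₀
  exact T2.finite_meanClass130 hcx h𝔫 hB.basis.cusp hB.basis.norm_one hB.basis.orth
    (fun j w => hB.basis.eig_complex j w (hcx w)) hB.eig_op j₀

end Fermat.Agent.LT.T7.H130
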